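/-
S15 / DESC, LOC-p without T7 (helper208): the pure-algebra counting lemma CNT-abs.

`X`, `M` additive commutative groups, `ι : M →+ X` with finite kernel, `N : X →+ M` with
`N ∘ ι ∘ N = 0`, `X[r]` finite and `r : X[r^(k+1)] → X[r^k]` surjective for all `k`.  Then
`|N (X[r])| ^ 2 ≤ |X[r]|`.

Application (doc `coord/S15-LOCp-helper208.md`): `X = e · (J/A)[r^∞]`, `M = J[r^∞]_E`,
`N = τ₀ - 1` for an inertia element `τ₀` at `p`; `dim X[r] = D + s₀`, so the subgroup
`U₀ = (τ₀ - 1) Y_E` of `W_E` generated by the ramification at `p` of the Kummer classes of rational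
points has dimension `≤ (D + s₀) / 2`.
-/
import Mathlib

set_option autoImplicit false
set_option linter.style.haveILetI false

namespace Fermat.Agent.S15.H208

section Gen

variable {G H : Type*} [AddCommGroup G] [AddCommGroup H]

/-- a group with a surjection onto a finite group with finite kernel -/
theorem finite_and_card_of_surjective (f : G →+ H) (hf : Function.Surjective f)
    (hH : Finite H) (hK : Finite f.ker) :
    Finite G ∧ Nat.card G = Nat.card H * Nat.card f.ker := by
  have e₁ : G ≃ (G ⧸ f.ker) × f.ker := AddSubgroup.addGroupEquivQuotientProdAddSubgroup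
  have e₂ : (G ⧸ f.ker) ≃ H := (QuotientAddGroup.quotientKerEquivOfSurjective f hf).toEquiv
  have e : G ≃ H × f.ker := e₁.trans (Equiv.prodCongr e₂ (Equiv.refl _))
  refine ⟨Finite.of_equiv _ e.symm, ?_⟩
  rw [Nat.card_congr e, Nat.card_prod]

/-- a group with a hom to a finite group with finite kernel (cardinality inequality) -/
theorem finite_and_card_le_of_ker (f : G →+ H) (hH : Finite H) (hK : Finite f.ker) :
    Finite G ∧ Nat.card G ≤ Nat.card H * Nat.card f.ker := by
  haveI := hH
  have hr : Finite f.range := inferInstance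
  obtain ⟨h1, h2⟩ := finite_and_card_of_surjective f.rangeRestrict f.rangeRestrict_surjective hr
    (by rw [AddMonoidHom.ker_rangeRestrict]; exact hK)
  refine ⟨h1, ?_⟩
  rw [h2, AddMonoidHom.ker_rangeRestrict]
  exact Nat.mul_le_mul_right _ (Nat.card_le_card_of_injective Subtype.val Subtype.val_injective)

end Gen

section Tors

variable (X : Type*) [AddCommGroup X]

/-- the `n`-torsion subgroup -/
def torsN (n : ℕ) : AddSubgroup X := (nsmulAddMonoidHom (α := X) n).ker

variable {X}

theorem mem_torsN {n : ℕ} {x : X} : x ∈ torsN X n ↔ n • x = 0 := by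
  rw [torsN, AddMonoidHom.mem_ker]
  rfl

theorem torsN_mono {m n : ℕ} (h : m ∣ n) : torsN X m ≤ torsN X n := by
  intro x hx
  rw [mem_torsN] at hx ⊢
  obtain ⟨c, rfl⟩ := h
  rw [mul_comm, mul_smul, hx, smul_zero]

end Tors

section Count

variable {X M : Type*} [AddCommGroup X] [AddCommGroup M]

/-- multiplication by `r` from `X[r^(k+1)]` to `X[r^k]` -/
def mulR (r k : ℕ) : torsN X (r ^ (k + 1)) →+ torsN X (r ^ k) where
  toFun x := ⟨r • (x : X), by
    rw [mem_torsN, ← mul_smul, ← pow_succ]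
    exact mem_torsN.1 x.2⟩
  map_zero' := by
    apply Subtype.ext
    simp
  map_add' x y := by
    apply Subtype.ext
    simp [smul_add]

theorem mulR_ker_card (r k : ℕ) :
    Nat.card (mulR (X := X) r k).ker = Nat.card (torsN X r) := by
  refine Nat.card_congr ⟨fun x => ⟨((x : torsN X (r ^ (k + 1))) : X), ?_⟩,
    fun x => ⟨⟨(x : X), torsN_mono (dvd_pow_self r (Nat.succ_ne_zero k)) x.2⟩, ?_⟩, ?_, ?_⟩
  · have h := x.2
    rw [AddMonoidHom.mem_ker] at h
    have h2 := congrArg Subtype.val h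
    exact mem_torsN.2 h2
  · rw [AddMonoidHom.mem_ker]
    apply Subtype.ext
    exact mem_torsN.1 x.2
  · intro x
    rfl
  · intro x
    rfl

/-- `|X[r^k]| = |X[r]|^k` for a group whose `r`-power torsion is `r`-divisible and `X[r]` finite -/
theorem card_torsN_pow (r : ℕ)
    (hfin : Finite (torsN X r))
    (hdiv : ∀ k : ℕ, ∀ x : X, r ^ k • x = 0 → ∃ x' : X, r ^ (k + 1) • x' = 0 ∧ r • x' = x)
    (k : ℕ) : Finite (torsN X (r ^ k)) ∧ Nat.card (torsN X (r ^ k)) = Nat.card (torsN X r) ^ k := by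
  induction k with
  | zero =>
    have h0 : ∀ y : X, y ∈ torsN X (r ^ 0) → y = 0 := by
      intro y hy
      have h := mem_torsN.1 hy
      rw [pow_zero, one_smul] at h
      exact h
    have h1 : ∀ x : torsN X (r ^ 0), x = 0 := by
      intro x
      apply Subtype.ext
      exact h0 x.1 x.2
    haveI : Subsingleton (torsN X (r ^ 0)) := ⟨fun a b => by rw [h1 a, h1 b]⟩
    refine ⟨inferInstance, ?_⟩
    have h2 : Nat.card (torsN X (r ^ 0)) = 1 := Nat.card_unique
    rw [h2, pow_zero]
  | succ k ih =>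
    obtain ⟨hf, hc⟩ := ih
    have hsurj : Function.Surjective (mulR (X := X) r k) := by
      rintro ⟨x, hx⟩
      obtain ⟨x', hx', hxx⟩ := hdiv k x (mem_torsN.1 hx)
      exact ⟨⟨x', mem_torsN.2 hx'⟩, Subtype.ext hxx⟩
    have hkfin : Finite (mulR (X := X) r k).ker := by
      have h := mulR_ker_card (X := X) r k
      have hpos : 0 < Nat.card (torsN X r) := Nat.card_pos
      rw [← h] at hpos
      exact (Nat.card_pos_iff.1 hpos).2
    obtain ⟨h1, h2⟩ := finite_and_card_of_surjective (mulR (X := X) r k) hsurj hf hkfin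
    refine ⟨h1, ?_⟩
    rw [h2, hc, mulR_ker_card, pow_succ]

/-- the image `N (X[n])` -/
def imgN (N : X →+ M) (n : ℕ) : AddSubgroup M := (torsN X n).map N

/-- `|N (X[r^k])| ≥ |N (X[r])|^k`. -/
theorem card_imgN_pow_le (r : ℕ) (N : X →+ M)
    (hfin : Finite (torsN X r))
    (hdiv : ∀ k : ℕ, ∀ x : X, r ^ k • x = 0 → ∃ x' : X, r ^ (k + 1) • x' = 0 ∧ r • x' = x)
    (k : ℕ) : Nat.card (imgN N r) ^ k ≤ Nat.card (imgN N (r ^ k)) := by
  induction k with
  | zero =>
    rw [pow_zero]
    have : Finite (torsN X (r ^ 0)) := (card_torsN_pow r hfin hdiv 0).1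
    have : Finite (imgN N (r ^ 0)) := by
      unfold imgN
      exact Finite.Set.finite_image _ _
    exact Nat.card_pos
  | succ k ih =>
    have hfk1 : Finite (torsN X (r ^ (k + 1))) := (card_torsN_pow r hfin hdiv (k + 1)).1
    have hfk : Finite (torsN X (r ^ k)) := (card_torsN_pow r hfin hdiv k).1
    haveI hUk1 : Finite (imgN N (r ^ (k + 1))) := by
      unfold imgN
      exact Finite.Set.finite_image _ _
    haveI hUk : Finite (imgN N (r ^ k)) := by
      unfold imgN
      exact Finite.Set.finite_image _ _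
    -- multiplication by `r` : U_{k+1} → U_k
    let f : imgN N (r ^ (k + 1)) →+ imgN N (r ^ k) :=
      { toFun := fun u => ⟨r • (u : M), by
          obtain ⟨x, hx, hxu⟩ := u.2
          refine ⟨r • x, ?_, ?_⟩
          · have hx' : r ^ (k + 1) • x = 0 := mem_torsN.1 hx
            show r • x ∈ torsN X (r ^ k)
            rw [mem_torsN, ← mul_smul, ← pow_succ]
            exact hx'
          · rw [map_nsmul, hxu]⟩
        map_zero' := by
          apply Subtype.ext
          simp
        map_add' := fun a b => by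
          apply Subtype.ext
          simp [smul_add] }
    have hfsurj : Function.Surjective f := by
      rintro ⟨u, x, hx, rfl⟩
      obtain ⟨x', hx', hxx⟩ := hdiv k x (mem_torsN.1 hx)
      refine ⟨⟨N x', x', mem_torsN.2 hx', rfl⟩, ?_⟩
      apply Subtype.ext
      show r • N x' = N x
      rw [← map_nsmul, hxx]
    obtain ⟨-, hcard⟩ := finite_and_card_of_surjective f hfsurj hUk inferInstance
    -- `U_1` injects into the kernel
    have hinj : Nat.card (imgN N r) ≤ Nat.card f.ker := by
      refine Nat.card_le_card_of_injective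
        (fun u : imgN N r => (⟨⟨(u : M), ?_⟩, ?_⟩ : f.ker)) ?_
      · obtain ⟨x, hx, hxu⟩ := u.2
        refine ⟨x, ?_, hxu⟩
        exact torsN_mono (dvd_pow_self r (Nat.succ_ne_zero k)) hx
      · rw [AddMonoidHom.mem_ker]
        apply Subtype.ext
        show r • (u : M) = 0
        obtain ⟨x, hx, hxu⟩ := u.2
        rw [← hxu, ← map_nsmul, mem_torsN.1 hx, map_zero]
      · intro a b hab
        apply Subtype.ext
        have := congrArg (fun z : f.ker => ((z : imgN N (r ^ (k + 1))) : M)) hab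
        exact this
    rw [hcard, pow_succ]
    exact Nat.mul_le_mul ih hinj

/-- `|N (X[r^k])|^2 ≤ |ker ι| · |X[r^k]|` when `N ∘ ι ∘ N = 0`. -/
theorem card_imgN_sq_le (n : ℕ) (ι : M →+ X) (N : X →+ M) (hN : ∀ x, N (ι (N x)) = 0)
    (hker : Finite ι.ker) (hfin : Finite (torsN X n)) :
    Nat.card (imgN N n) ^ 2 ≤ Nat.card ι.ker * Nat.card (torsN X n) := by
  haveI := hfin
  haveI := hker
  -- `N` restricted to `X[n]`
  let Nn : torsN X n →+ M := N.comp (torsN X n).subtype
  have hrange : Nn.range = imgN N n := by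
    ext u
    constructor
    · rintro ⟨x, rfl⟩
      exact ⟨x, x.2, rfl⟩
    · rintro ⟨x, hx, rfl⟩
      exact ⟨⟨x, hx⟩, rfl⟩
  haveI hUfin : Finite (imgN N n) := by
    unfold imgN
    exact Finite.Set.finite_image _ _
  -- `|X[n]| = |im| · |ker|`
  have h1 : Nat.card (torsN X n) = Nat.card (imgN N n) * Nat.card Nn.ker := by
    obtain ⟨-, h⟩ := finite_and_card_of_surjective Nn.rangeRestrict Nn.rangeRestrict_surjective
      (Finite.of_surjective Nn.rangeRestrict Nn.rangeRestrict_surjective)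
      (by rw [AddMonoidHom.ker_rangeRestrict]; infer_instance)
    rw [h, AddMonoidHom.ker_rangeRestrict, hrange]
  -- `ι` maps the image into `ker Nn`, with kernel inside `ker ι`
  let g : imgN N n →+ Nn.ker :=
    { toFun := fun u => ⟨⟨ι (u : M), by
          obtain ⟨x, hx, hxu⟩ := u.2
          rw [mem_torsN, ← map_nsmul, ← hxu, ← map_nsmul, mem_torsN.1 hx, map_zero, map_zero]⟩, by
          rw [AddMonoidHom.mem_ker]
          obtain ⟨x, hx, hxu⟩ := u.2
          show N (ι (u : M)) = 0
          rw [← hxu]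
          exact hN x⟩
      map_zero' := by
        apply Subtype.ext
        apply Subtype.ext
        simp
      map_add' := fun a b => by
        apply Subtype.ext
        apply Subtype.ext
        simp }
  have hgker : Nat.card g.ker ≤ Nat.card ι.ker := by
    refine Nat.card_le_card_of_injective
      (fun u : g.ker => (⟨((u : imgN N n) : M), ?_⟩ : ι.ker)) ?_
    · have h := u.2
      rw [AddMonoidHom.mem_ker] at h
      have h2 := congrArg (fun z : Nn.ker => ((z : torsN X n) : X)) h
      rw [AddMonoidHom.mem_ker]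
      exact h2
    · intro a b hab
      apply Subtype.ext
      apply Subtype.ext
      exact congrArg (fun z : ι.ker => (z : M)) hab
  obtain ⟨-, h2⟩ := finite_and_card_le_of_ker g inferInstance inferInstance
  calc Nat.card (imgN N n) ^ 2 = Nat.card (imgN N n) * Nat.card (imgN N n) := sq _
    _ ≤ Nat.card (imgN N n) * (Nat.card Nn.ker * Nat.card g.ker) :=
        Nat.mul_le_mul_left _ h2
    _ ≤ Nat.card (imgN N n) * (Nat.card Nn.ker * Nat.card ι.ker) :=
        Nat.mul_le_mul_left _ (Nat.mul_le_mul_left _ hgker)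
    _ = Nat.card ι.ker * Nat.card (torsN X n) := by rw [h1]; ring

/-- arithmetic: `a^(2k) ≤ c · b^k` for all `k` implies `a^2 ≤ b`. -/
theorem sq_le_of_forall_pow_le (a b c : ℕ) (h : ∀ k : ℕ, (a ^ 2) ^ k ≤ c * b ^ k) :
    a ^ 2 ≤ b := by
  by_contra hlt
  have hlt' : b + 1 ≤ a ^ 2 := Nat.lt_of_not_le hlt
  -- `(b+1)^k ≥ b^k + k b^(k-1)`; take `k = c * b + 1`
  have key : ∀ k : ℕ, b ^ (k + 1) + (k + 1) * b ^ k ≤ (b + 1) ^ (k + 1) := by
    intro k
    induction k with
    | zero => simp
    | succ k ih =>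
      calc b ^ (k + 2) + (k + 2) * b ^ (k + 1)
          = (b ^ (k + 1) + (k + 1) * b ^ k) * b + b ^ (k + 1) := by ring
        _ ≤ (b + 1) ^ (k + 1) * b + (b + 1) ^ (k + 1) := by
            refine Nat.add_le_add (Nat.mul_le_mul_right _ ih) ?_
            exact Nat.pow_le_pow_left (Nat.le_succ b) _
        _ = (b + 1) ^ (k + 2) := by ring
  have h1 := h (c * b + 1)
  have h2 : (b + 1) ^ (c * b + 1) ≤ c * b ^ (c * b + 1) :=
    le_trans (Nat.pow_le_pow_left hlt' _) h1
  have h3 := key (c * b)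
  have h4 : b ^ (c * b + 1) + (c * b + 1) * b ^ (c * b) ≤ c * b ^ (c * b + 1) :=
    le_trans h3 h2
  have h5 : c * b ^ (c * b + 1) = (c * b) * b ^ (c * b) := by ring
  rw [h5] at h4
  have h6 : (c * b + 1) * b ^ (c * b) = c * b * b ^ (c * b) + b ^ (c * b) := by ring
  rw [h6] at h4
  -- so `b^(cb+1) + b^(cb) ≤ 0`
  have h7 : b ^ (c * b + 1) + b ^ (c * b) = 0 := by omega
  have h8 : b ^ (c * b) = 0 := by omega
  have hb : b = 0 := by
    by_contra hb
    exact absurd h8 (pow_ne_zero _ hb)
  subst hb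
  -- `b = 0`: `h 0` gives `1 ≤ c`, and `h 1` gives `a^2 ≤ 0`
  have h9 := h 1
  rw [pow_one, pow_one, Nat.mul_zero] at h9
  omega

/-- **CNT-abs.**  `|N (X[r])|² ≤ |X[r]|`. -/
theorem card_imgN_sq_le_card_tors (r : ℕ) (ι : M →+ X) (N : X →+ M)
    (hN : ∀ x, N (ι (N x)) = 0) (hker : Finite ι.ker)
    (hfin : Finite (torsN X r))
    (hdiv : ∀ k : ℕ, ∀ x : X, r ^ k • x = 0 → ∃ x' : X, r ^ (k + 1) • x' = 0 ∧ r • x' = x) :
    Nat.card (imgN N r) ^ 2 ≤ Nat.card (torsN X r) := by
  refine sq_le_of_forall_pow_le _ _ (Nat.card ι.ker) (fun k => ?_)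
  obtain ⟨hfk, hck⟩ := card_torsN_pow r hfin hdiv k
  have h1 := card_imgN_sq_le (r ^ k) ι N hN hker hfk
  have h2 := card_imgN_pow_le r N hfin hdiv k
  calc (Nat.card (imgN N r) ^ 2) ^ k = (Nat.card (imgN N r) ^ k) ^ 2 := by ring
    _ ≤ Nat.card (imgN N (r ^ k)) ^ 2 := Nat.pow_le_pow_left h2 2
    _ ≤ Nat.card ι.ker * Nat.card (torsN X (r ^ k)) := h1
    _ = Nat.card ι.ker * Nat.card (torsN X r) ^ k := by rw [hck]

end Count

end Fermat.Agent.S15.H208
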