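/-
S15 / DESC, LOC-p without T7 (helper208): CNT-inst, abstract form.

`J` an additive group with an action of a group `G`, `A = J^G`, `M ≤ J` a `G`-stable subgroup of
`r`-power torsion (in the application: the Eisenstein part of `J₀(p)[r^∞]`), `τ₀ ∈ G`.
`Y_E = {y : r y ∈ A, σ y - y ∈ M for all σ}`, `U₀ = (τ₀ - 1) Y_E`.

`card_tauSub_YE_sq_le` :  `|U₀|² ≤ [Y_E : A]`, provided

* (DIV)  `J = r J`,
* (PROJ) for every `k` there is a `G`-equivariant endomorphism `e` of `J` which is the identity on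
         `M[r^k]` and maps `J[r^k]` into `M`,
* (T6'') `(τ₀ - 1)² h = 0` whenever `r^k h ∈ A` for some `k`,
* `A ∩ M` is finite and `[Y_E : A]` is finite.

`selfImproving` : the arithmetic which turns (SEL) + (CNT) + (COUNT) into SEL-BOUND.
-/
import Fermat.Agent.S15.H208.CountAbs

set_option autoImplicit false
set_option linter.style.haveILetI false

namespace Fermat.Agent.S15.H208

section Inst

variable {J : Type*} [AddCommGroup J] (G : Type*) [Group G] [DistribMulAction G J]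

/-- `τ - 1` as an additive endomorphism -/
def tauSub {G : Type*} [Group G] [DistribMulAction G J] (τ : G) : J →+ J :=
  DistribSMul.toAddMonoidHom J τ - AddMonoidHom.id J

theorem tauSub_apply {G : Type*} [Group G] [DistribMulAction G J] (τ : G) (x : J) :
    tauSub τ x = τ • x - x := rfl

/-- the `r`-divisible hull of the rational points, `E`-part:
`{h : r^k h ∈ A for some k, σ h - h ∈ M for all σ}` -/
def hullE (r : ℕ) (M : AddSubgroup J) : AddSubgroup J where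
  carrier := {h | (∃ k : ℕ, ∀ σ : G, σ • (r ^ k • h) = r ^ k • h) ∧ ∀ σ : G, σ • h - h ∈ M}
  zero_mem' := ⟨⟨0, fun σ => by simp⟩, fun σ => by simp⟩
  add_mem' := by
    rintro a b ⟨⟨k, hk⟩, ha⟩ ⟨⟨l, hl⟩, hb⟩
    refine ⟨⟨k + l, fun σ => ?_⟩, fun σ => ?_⟩
    · have h1 : r ^ (k + l) • a = r ^ l • (r ^ k • a) := by
        rw [← mul_smul, ← pow_add, add_comm]
      have h2 : r ^ (k + l) • b = r ^ k • (r ^ l • b) := by
        rw [← mul_smul, ← pow_add]
      rw [smul_add, h1, h2, smul_add, smul_comm σ, hk σ, smul_comm σ (r ^ k), hl σ]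
    · have : σ • (a + b) - (a + b) = (σ • a - a) + (σ • b - b) := by
        rw [smul_add]; abel
      rw [this]
      exact M.add_mem (ha σ) (hb σ)
  neg_mem' := by
    rintro a ⟨⟨k, hk⟩, ha⟩
    refine ⟨⟨k, fun σ => ?_⟩, fun σ => ?_⟩
    · rw [smul_neg, smul_neg, hk σ]
    · have : σ • (-a) - (-a) = -(σ • a - a) := by
        rw [smul_neg]; abel
      rw [this]
      exact M.neg_mem (ha σ)

/-- `Y_E = {y : r y ∈ A, σ y - y ∈ M for all σ}` -/
def YE (r : ℕ) (M : AddSubgroup J) : AddSubgroup J where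
  carrier := {y | (∀ σ : G, σ • (r • y) = r • y) ∧ ∀ σ : G, σ • y - y ∈ M}
  zero_mem' := ⟨fun σ => by simp, fun σ => by simp⟩
  add_mem' := by
    rintro a b ⟨hk, ha⟩ ⟨hl, hb⟩
    refine ⟨fun σ => ?_, fun σ => ?_⟩
    · rw [smul_add, smul_add, hk σ, hl σ]
    · have : σ • (a + b) - (a + b) = (σ • a - a) + (σ • b - b) := by
        rw [smul_add]; abel
      rw [this]
      exact M.add_mem (ha σ) (hb σ)
  neg_mem' := by
    rintro a ⟨hk, ha⟩
    refine ⟨fun σ => ?_, fun σ => ?_⟩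
    · rw [smul_neg, smul_neg, hk σ]
    · have : σ • (-a) - (-a) = -(σ • a - a) := by
        rw [smul_neg]; abel
      rw [this]
      exact M.neg_mem (ha σ)

variable {G}

theorem mem_hullE {r : ℕ} {M : AddSubgroup J} {h : J} :
    h ∈ hullE G r M ↔
      (∃ k : ℕ, ∀ σ : G, σ • (r ^ k • h) = r ^ k • h) ∧ ∀ σ : G, σ • h - h ∈ M := Iff.rfl

theorem mem_YE {r : ℕ} {M : AddSubgroup J} {y : J} :
    y ∈ YE G r M ↔ (∀ σ : G, σ • (r • y) = r • y) ∧ ∀ σ : G, σ • y - y ∈ M := Iff.rfl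

theorem YE_le_hullE (r : ℕ) (M : AddSubgroup J) : YE G r M ≤ hullE G r M := by
  rintro y ⟨h1, h2⟩
  exact ⟨⟨1, fun σ => by rw [pow_one]; exact h1 σ⟩, h2⟩

theorem fixed_le_YE (r : ℕ) (M : AddSubgroup J) : FixedPoints.addSubgroup G J ≤ YE G r M := by
  intro a ha
  have ha : ∀ σ : G, σ • a = a := ha
  refine ⟨fun σ => by rw [smul_comm, ha σ], fun σ => ?_⟩
  rw [ha σ, sub_self]
  exact M.zero_mem

theorem le_hullE_of_tors (r : ℕ) (M : AddSubgroup J)
    (hMtors : ∀ x ∈ M, ∃ k : ℕ, r ^ k • x = 0) (hMG : ∀ (σ : G), ∀ x ∈ M, σ • x ∈ M) :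
    M ≤ hullE G r M := by
  intro x hx
  obtain ⟨k, hk⟩ := hMtors x hx
  exact ⟨⟨k, fun σ => by rw [hk, smul_zero]⟩, fun σ => M.sub_mem (hMG σ x hx) hx⟩

/-- (DIV) + (PROJ) ⟹ the hull is `r`-divisible modulo the rational points. -/
theorem hullE_divisible (r : ℕ) (M : AddSubgroup J)
    (hDIV : ∀ x : J, ∃ y : J, r • y = x)
    (hPROJ : ∀ k : ℕ, ∃ e : J →+ J, (∀ (σ : G) (x : J), e (σ • x) = σ • e x) ∧
      (∀ x ∈ M, r ^ k • x = 0 → e x = x) ∧ (∀ x : J, r ^ k • x = 0 → e x ∈ M))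
    (h : J) (hh : h ∈ hullE G r M) :
    ∃ h' ∈ hullE G r M, r • h' - h ∈ FixedPoints.addSubgroup G J := by
  obtain ⟨⟨k, hk⟩, hM⟩ := hh
  obtain ⟨h₁, rfl⟩ := hDIV h
  obtain ⟨e, he1, he2, he3⟩ := hPROJ (k + 1)
  have hpow : ∀ x : J, r ^ (k + 1) • x = r ^ k • (r • x) := by
    intro x
    rw [← mul_smul, ← pow_succ]
  -- `σ h₁ - h₁` is killed by `r^(k+1)`
  have hfix : ∀ σ : G, σ • (r ^ (k + 1) • h₁) = r ^ (k + 1) • h₁ := by
    intro σ
    rw [hpow, hk σ]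
  have hc : ∀ σ : G, r ^ (k + 1) • (σ • h₁ - h₁) = 0 := by
    intro σ
    calc r ^ (k + 1) • (σ • h₁ - h₁) = r ^ (k + 1) • σ • h₁ - r ^ (k + 1) • h₁ := smul_sub _ _ _
      _ = σ • (r ^ (k + 1) • h₁) - r ^ (k + 1) • h₁ := by rw [smul_comm]
      _ = 0 := by rw [hfix σ, sub_self]
  have hc' : ∀ σ : G, r ^ (k + 1) • (σ • (r • h₁) - r • h₁) = 0 := by
    intro σ
    have h0 : σ • (r • h₁) - r • h₁ = r • (σ • h₁ - h₁) := by
      rw [smul_sub, smul_comm]
    rw [h0, smul_comm, hc σ, smul_zero]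
  refine ⟨e h₁, ⟨⟨k + 1, fun σ => ?_⟩, fun σ => ?_⟩, ?_⟩
  · calc σ • (r ^ (k + 1) • e h₁) = σ • e (r ^ (k + 1) • h₁) := by rw [map_nsmul]
      _ = e (σ • (r ^ (k + 1) • h₁)) := (he1 _ _).symm
      _ = e (r ^ (k + 1) • h₁) := by rw [hfix σ]
      _ = r ^ (k + 1) • e h₁ := map_nsmul _ _ _
  · rw [← he1, ← map_sub]
    exact he3 _ (hc σ)
  · show ∀ σ : G, σ • (r • e h₁ - r • h₁) = r • e h₁ - r • h₁
    intro σ
    have h1 : σ • (r • e h₁ - r • h₁) - (r • e h₁ - r • h₁)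
        = e (σ • (r • h₁) - r • h₁) - (σ • (r • h₁) - r • h₁) := by
      rw [map_sub, he1, map_nsmul, smul_sub]
      abel
    have h2 : e (σ • (r • h₁) - r • h₁) = σ • (r • h₁) - r • h₁ :=
      he2 _ (hM σ) (hc' σ)
    rw [h2, sub_self] at h1
    exact sub_eq_zero.1 h1

/-- **CNT-inst (abstract).**  `|(τ₀ - 1) Y_E|² ≤ [Y_E : A]`. -/
theorem card_tauSub_YE_sq_le (r : ℕ) (M : AddSubgroup J) (τ₀ : G)
    (hMtors : ∀ x ∈ M, ∃ k : ℕ, r ^ k • x = 0)
    (hMG : ∀ (σ : G), ∀ x ∈ M, σ • x ∈ M)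
    (hdiv : ∀ h ∈ hullE G r M, ∃ h' ∈ hullE G r M, r • h' - h ∈ FixedPoints.addSubgroup G J)
    (hT6 : ∀ h ∈ hullE G r M, τ₀ • (τ₀ • h - h) - (τ₀ • h - h) = 0)
    (hfinA : Finite ↥(FixedPoints.addSubgroup G J ⊓ M))
    (hfinY : (FixedPoints.addSubgroup G J).relIndex (YE G r M) ≠ 0) :
    Nat.card ((YE G r M).map (tauSub τ₀)) ^ 2
      ≤ (FixedPoints.addSubgroup G J).relIndex (YE G r M) := by
  classical
  set A : AddSubgroup J := FixedPoints.addSubgroup G J with hA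
  set H : AddSubgroup J := hullE G r M with hH
  set Y : AddSubgroup J := YE G r M with hY
  have hAmem : ∀ a : J, a ∈ A ↔ ∀ σ : G, σ • a = a := fun a => Iff.rfl
  have hYH : Y ≤ H := YE_le_hullE r M
  have hMH : M ≤ H := le_hullE_of_tors r M hMtors hMG
  -- the quotient `X = H / A`
  let AH : AddSubgroup H := A.addSubgroupOf H
  let π : H →+ H ⧸ AH := QuotientAddGroup.mk' AH
  have hπ : ∀ h : H, π h = 0 ↔ (h : J) ∈ A := by
    intro h
    rw [QuotientAddGroup.mk'_apply, QuotientAddGroup.eq_zero_iff]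
    exact AddSubgroup.mem_addSubgroupOf
  -- `N₀ : H → M`
  let N₀ : H →+ M :=
    { toFun := fun h => ⟨τ₀ • (h : J) - h, h.2.2 τ₀⟩
      map_zero' := by
        apply Subtype.ext
        simp
      map_add' := fun a b => by
        apply Subtype.ext
        show τ₀ • ((a : J) + b) - (a + b) = (τ₀ • (a : J) - a) + (τ₀ • (b : J) - b)
        rw [smul_add]; abel }
  have hN₀ : ∀ h : H, ((N₀ h : M) : J) = τ₀ • (h : J) - h := fun h => rfl
  have hN₀A : AH ≤ N₀.ker := by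
    intro h hh
    rw [AddMonoidHom.mem_ker]
    apply Subtype.ext
    rw [hN₀]
    have : (h : J) ∈ A := AddSubgroup.mem_addSubgroupOf.1 hh
    rw [(hAmem _).1 this τ₀, sub_self]
    rfl
  let N : H ⧸ AH →+ M := QuotientAddGroup.lift AH N₀ hN₀A
  have hNπ : ∀ h : H, N (π h) = N₀ h := fun h => rfl
  let ι : M →+ H ⧸ AH := π.comp (AddSubgroup.inclusion hMH)
  have hι : ∀ m : M, ι m = π ⟨(m : J), hMH m.2⟩ := fun m => rfl
  -- `N ∘ ι ∘ N = 0`
  have hN : ∀ x : H ⧸ AH, N (ι (N x)) = 0 := by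
    intro x
    obtain ⟨h, rfl⟩ := QuotientAddGroup.mk'_surjective AH x
    rw [hNπ, hι, hNπ]
    apply Subtype.ext
    rw [hN₀]
    exact hT6 h h.2
  -- `ker ι` is finite
  have hker : Finite ι.ker := by
    haveI := hfinA
    refine Finite.of_injective
      (fun m : ι.ker => (⟨((m : M) : J), ?_⟩ : ↥(A ⊓ M))) ?_
    · refine ⟨?_, (m : M).2⟩
      have h1 := m.2
      rw [AddMonoidHom.mem_ker, hι, hπ] at h1
      exact h1
    · intro a b hab
      apply Subtype.ext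
      apply Subtype.ext
      exact congrArg (fun z : ↥(A ⊓ M) => (z : J)) hab
  -- the map `Y → X[r]`
  have hrY : ∀ y : Y, r • π ⟨(y : J), hYH y.2⟩ = 0 := by
    intro y
    rw [← map_nsmul, hπ]
    show r • (y : J) ∈ A
    rw [hAmem]
    exact y.2.1
  let f : Y →+ torsN (H ⧸ AH) r :=
    { toFun := fun y => ⟨π ⟨(y : J), hYH y.2⟩, mem_torsN.2 (hrY y)⟩
      map_zero' := by
        apply Subtype.ext
        exact map_zero π
      map_add' := fun a b => by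
        apply Subtype.ext
        exact map_add π ⟨(a : J), hYH a.2⟩ ⟨(b : J), hYH b.2⟩ }
  have hf : ∀ y : Y, ((f y : torsN (H ⧸ AH) r) : H ⧸ AH) = π ⟨(y : J), hYH y.2⟩ := fun y => rfl
  have hfsurj : Function.Surjective f := by
    rintro ⟨x, hx⟩
    obtain ⟨h, rfl⟩ := QuotientAddGroup.mk'_surjective AH x
    have h1 : r • π h = 0 := mem_torsN.1 hx
    rw [← map_nsmul, hπ] at h1
    have h2 : (h : J) ∈ Y := by
      refine ⟨fun σ => ?_, h.2.2⟩
      exact (hAmem _).1 h1 σ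
    exact ⟨⟨(h : J), h2⟩, Subtype.ext rfl⟩
  have hfker : f.ker = A.addSubgroupOf Y := by
    ext y
    rw [AddMonoidHom.mem_ker, AddSubgroup.mem_addSubgroupOf]
    constructor
    · intro h
      have := congrArg Subtype.val h
      rw [hf] at this
      exact (hπ _).1 this
    · intro h
      apply Subtype.ext
      rw [hf]
      exact (hπ _).2 h
  have hcardX : Nat.card (torsN (H ⧸ AH) r) = A.relIndex Y := by
    have h1 := AddSubgroup.index_ker f
    rw [AddMonoidHom.range_eq_top.2 hfsurj] at h1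
    rw [AddSubgroup.relIndex, ← hfker, h1]
    exact (Nat.card_congr (Equiv.Set.univ _)).symm
  have hfinX : Finite (torsN (H ⧸ AH) r) := by
    have : Nat.card (torsN (H ⧸ AH) r) ≠ 0 := by rw [hcardX]; exact hfinY
    exact (Nat.card_pos_iff.1 (Nat.pos_of_ne_zero this)).2
  -- divisibility
  have hdivX : ∀ k : ℕ, ∀ x : H ⧸ AH, r ^ k • x = 0 →
      ∃ x' : H ⧸ AH, r ^ (k + 1) • x' = 0 ∧ r • x' = x := by
    intro k x hx
    obtain ⟨h, rfl⟩ := QuotientAddGroup.mk'_surjective AH x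
    obtain ⟨h', hh', hd⟩ := hdiv h h.2
    have h2 : r • π ⟨h', hh'⟩ = π h := by
      rw [← map_nsmul, ← sub_eq_zero, ← map_sub, hπ]
      exact hd
    refine ⟨π ⟨h', hh'⟩, ?_, h2⟩
    rw [pow_succ, mul_smul, h2]
    exact hx
  -- the image
  have himg : (imgN N r).map M.subtype = Y.map (tauSub τ₀) := by
    ext u
    constructor
    · rintro ⟨m, ⟨x, hx, rfl⟩, rfl⟩
      obtain ⟨y, hy⟩ := hfsurj ⟨x, hx⟩
      have hxy : x = π ⟨(y : J), hYH y.2⟩ := by
        have := congrArg Subtype.val hy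
        rw [hf] at this
        exact this.symm
      refine ⟨(y : J), y.2, ?_⟩
      rw [hxy, hNπ]
      rfl
    · rintro ⟨y, hy, rfl⟩
      refine ⟨N₀ ⟨y, hYH hy⟩, ⟨π ⟨y, hYH hy⟩, mem_torsN.2 (hrY ⟨y, hy⟩), rfl⟩, rfl⟩
  have hcardU : Nat.card (Y.map (tauSub τ₀)) = Nat.card (imgN N r) := by
    rw [← himg]
    exact AddSubgroup.card_map_of_injective M.subtype_injective
  rw [hcardU, ← hcardX]
  exact card_imgN_sq_le_card_tors r ι N hN hker hfinX hdivX

end Inst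

/-- The self-improving arithmetic: (SEL) `a·E ≤ b·u`, (CNT) `u²·b ≤ a·w`, (COUNT) `w ≤ E²`
give SEL-BOUND `a ≤ b`.  (`a = |Y_E/(A+W_E)|`, `b = |W_E^G|`, `u = |U₀|`, `w = |W_E|`,
`E = r^(#et)`.) -/
theorem selfImproving (a b u w E : ℕ) (ha : 0 < a) (hE : 0 < E)
    (hSEL : a * E ≤ b * u) (hCNT : u ^ 2 * b ≤ a * w) (hCOUNT : w ≤ E ^ 2) : a ≤ b := by
  by_contra hlt
  have hlt' : b < a := Nat.lt_of_not_le hlt
  have h1 : (a * E) ^ 2 ≤ (b * u) ^ 2 := Nat.pow_le_pow_left hSEL 2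
  have h2 : (b * u) ^ 2 = b * (u ^ 2 * b) := by ring
  have h3 : b * (u ^ 2 * b) ≤ b * (a * w) := Nat.mul_le_mul_left _ hCNT
  have h4 : b * (a * w) ≤ b * (a * E ^ 2) := Nat.mul_le_mul_left _ (Nat.mul_le_mul_left _ hCOUNT)
  have h5 : (a * E) ^ 2 ≤ b * (a * E ^ 2) := by
    rw [h2] at h1
    exact le_trans h1 (le_trans h3 h4)
  have h6 : (a * E) ^ 2 = a * (a * E ^ 2) := by ring
  rw [h6] at h5
  have hpos : 0 < a * E ^ 2 := Nat.mul_pos ha (pow_pos hE 2)
  exact absurd (Nat.le_of_mul_le_mul_right h5 hpos) (Nat.not_le.2 hlt')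

end Fermat.Agent.S15.H208
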