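/-
S15 / DESC, LOC-p without T7 (helper208): the interface of the leaf T6'' (owner helper608).

`T6ppStatement N q m` : for every inertia element `τ` at a place over `q` and every `x ∈ J₀(N)(ℚ̄)`
such that `m • x` is RATIONAL (fixed by the absolute Galois group of `ℚ`), `(τ - 1)² x = 0`.
(The wall A2, `A2.Spec.Target N q m`, is the special case `m • x = 0`.)
Consumed by `H208.CountInst` at `N = q = p`, `m = r ^ k`.
-/
import Fermat.Prelude.Def_ModularCurve_ArithmeticGalois
import Fermat.Prelude.Def_FLTPrelim_Ramification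

set_option autoImplicit false

namespace Fermat.Agent.S15.H208

open ModularCurve

/-- `(τ - 1)² x = 0` for all `x ∈ J₀(N)` with `m • x` rational. -/
def T6ppAt (N m : ℕ) (τ : AlgebraicClosure ℚ ≃ₐ[ℚ] AlgebraicClosure ℚ) : Prop :=
  ∀ x : JZero N,
    (∀ σ : AlgebraicClosure ℚ ≃ₐ[ℚ] AlgebraicClosure ℚ, σ • (m • x) = m • x) →
    τ • (τ • x) + x = 2 • (τ • x)

/-- **T6''** : `T6ppAt N m τ` for every inertia element `τ` at a place over `q`. -/
def T6ppStatement (N q m : ℕ) : Prop :=
  ∀ P : ValuationSubring (AlgebraicClosure ℚ), P.LiesOverPrime q →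
    ∀ τ ∈ P.inertiaSubgroupIn ℚ, T6ppAt N m τ

end Fermat.Agent.S15.H208
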