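/-
S15 / DESC-CORE, alternative assembly WITHOUT T7 (helper208).

Same objects and the same leaves as the frozen skeleton `S15/H975/DescSpec.lean` (helper975),
except that the pair (LOCP, T6 + T7) is replaced by (LOCP0, T6''):

    DescCoreTarget p S r
      <== ALG0        (unchanged)
      <== ENGINE-gen  : [Y(W_E) : A + W_E] · |W_E| ≤ |W_E ∩ A| · |K| · |U|   (no hypothesis on |K| |U|;
                        this is what the proof of ENGINE shows before using |K| |U| ≤ |W_E|)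
      <== FLAG        (unchanged)
      <== LOCAL-gen   : K with |K|² ≤ |W_E| (COUNT), ONE inertia element τ₀ at p, and the step bounds
                        for K and U₀ := (τ₀ - 1) Y(W_E)
      <== LOCP0       : |U₀|² · |W_E ∩ A| ≤ [Y(W_E) : A + W_E] · |W_E|     (`H208.LocP0`, from T6'')

Arithmetic: with a = [Y(W_E) : A + W_E], b = |W_E ∩ A|, w = |W_E|, κ = |K|, u = |U₀|:
`a w ≤ b κ u`, `u² b ≤ a w`, `κ² ≤ w`  ⟹  `a ≤ b`  (= SEL-BOUND).
-/
import Fermat.Agent.S15.H975.DescSpec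
import Fermat.Agent.S15.H208.CountInst

set_option autoImplicit false
set_option linter.style.haveILetI false

noncomputable section

namespace Fermat.Agent.S15.H208

open ModularCurve Fermat.Agent.S15.H975

/-- `U₀ = (τ₀ - 1) Y(W_E)`. -/
def U0 (p : ℕ) [NeZero p] (S : Set ℕ) (r : ℕ) (τ₀ : Gal) : AddSubgroup (JZero p) :=
  (sel p r (eis p S r)).map (tauSub τ₀)

theorem mem_U0 {p : ℕ} [NeZero p] {S : Set ℕ} {r : ℕ} {τ₀ : Gal} {u : JZero p} :
    u ∈ U0 p S r τ₀ ↔ ∃ y ∈ sel p r (eis p S r), τ₀ • y - y = u := Iff.rfl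

theorem U0_le (p : ℕ) [NeZero p] (S : Set ℕ) (r : ℕ) (τ₀ : Gal) :
    U0 p S r τ₀ ≤ eis p S r := by
  rintro u ⟨y, hy, rfl⟩
  exact hy.2 τ₀

theorem tauSub_mem_U0 {p : ℕ} [NeZero p] {S : Set ℕ} {r : ℕ} (τ₀ : Gal) {y : JZero p}
    (hy : y ∈ sel p r (eis p S r)) : τ₀ • y - y ∈ U0 p S r τ₀ :=
  ⟨y, hy, rfl⟩

/-- **ENGINE, general form** (pure algebra, Mathlib only): the index bound in terms of `|K|`,
`|U|`, without any hypothesis on `|K| |U|`. -/
def EngineGenStatement : Prop :=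
  ∀ (p : ℕ) [NeZero p] (S : Set ℕ) (r : ℕ), r.Prime → Finite ↥(tors p r) →
    ∀ K U : AddSubgroup (JZero p), K ≤ eis p S r → U ≤ eis p S r →
    ∀ (D : ℕ) (F : ℕ → AddSubgroup (JZero p)), IsFlag p S r D F →
      (∀ i < D, StepBound p r K U (F i) (F (i + 1))) →
      (rat p ⊔ eis p S r).relIndex (sel p r (eis p S r)) ≠ 0 ∧
      (rat p ⊔ eis p S r).relIndex (sel p r (eis p S r)) * Nat.card ↥(eis p S r)
        ≤ Nat.card ↥(eis p S r ⊓ rat p) * (Nat.card ↥K * Nat.card ↥U)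

/-- **LOCAL, general form**: `K` with `|K|² ≤ |W_E|` and ONE inertia element `τ₀` at `p` such that
every Eisenstein piece satisfies the step bound for `K` and `U₀ = (τ₀ - 1) Y(W_E)`. -/
def LocalGenStatement : Prop :=
  ∀ (p : ℕ) [NeZero p], p.Prime → ∀ (S : Finset ℕ) (r : ℕ), r.Prime → r ∣ p - 1 →
    ∃ K : AddSubgroup (JZero p), K ≤ eis p (S : Set ℕ) r ∧
      Nat.card ↥K ^ 2 ≤ Nat.card ↥(eis p (S : Set ℕ) r) ∧
      ∃ A : ValuationSubring Qb, A.LiesOverPrime p ∧ ∃ τ₀ ∈ A.inertiaSubgroupIn ℚ,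
        ∀ F' F : AddSubgroup (JZero p), F ≤ eis p (S : Set ℕ) r → IsEisPiece p r F' F →
          StepBound p r K (U0 p (S : Set ℕ) r τ₀) F' F

/-- **LOC-p, self-improving form** (CNT): for every inertia element `τ₀` at `p`,
`|U₀|² · |W_E ∩ A| ≤ [Y(W_E) : A + W_E] · |W_E|`, i.e. `|U₀|² ≤ [Y(W_E) : A]`. -/
def LocP0Statement : Prop :=
  ∀ (p : ℕ) [NeZero p], p.Prime → ∀ (S : Finset ℕ) (r : ℕ), r.Prime → r ∣ p - 1 →
    ∀ A : ValuationSubring Qb, A.LiesOverPrime p → ∀ τ₀ ∈ A.inertiaSubgroupIn ℚ,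
      (rat p ⊔ eis p (S : Set ℕ) r).relIndex (sel p r (eis p (S : Set ℕ) r)) ≠ 0 →
      Nat.card ↥(U0 p (S : Set ℕ) r τ₀) ^ 2 * Nat.card ↥(eis p (S : Set ℕ) r ⊓ rat p)
        ≤ (rat p ⊔ eis p (S : Set ℕ) r).relIndex (sel p r (eis p (S : Set ℕ) r))
            * Nat.card ↥(eis p (S : Set ℕ) r)

/-- the arithmetic of the self-improving count -/
theorem selfImproving_gen (a b w κ u : ℕ) (ha : 0 < a) (hw : 0 < w)
    (hENG : a * w ≤ b * (κ * u)) (hCNT : u ^ 2 * b ≤ a * w) (hCOUNT : κ ^ 2 ≤ w) : a ≤ b := by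
  by_contra hlt
  have hlt' : b < a := Nat.lt_of_not_le hlt
  have h1 : (a * w) ^ 2 ≤ (b * (κ * u)) ^ 2 := Nat.pow_le_pow_left hENG 2
  have h2 : (b * (κ * u)) ^ 2 = b * κ ^ 2 * (u ^ 2 * b) := by ring
  have h3 : b * κ ^ 2 * (u ^ 2 * b) ≤ b * w * (a * w) :=
    Nat.mul_le_mul (Nat.mul_le_mul_left _ hCOUNT) hCNT
  have h5 : (a * w) ^ 2 ≤ b * w * (a * w) := by
    rw [h2] at h1
    exact le_trans h1 h3
  have h6 : (a * w) ^ 2 = a * (a * w ^ 2) := by ring
  have h7 : b * w * (a * w) = b * (a * w ^ 2) := by ring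
  rw [h6, h7] at h5
  have hpos : 0 < a * w ^ 2 := Nat.mul_pos ha (pow_pos hw 2)
  exact absurd (Nat.le_of_mul_le_mul_right h5 hpos) (Nat.not_le.2 hlt')

/-- ENGINE (frozen form) follows from ENGINE-gen. -/
theorem engine_of_engineGen (hE : EngineGenStatement) : EngineStatement := by
  intro p _ S r hr hW K U hK hU hKU D F hF hstep
  obtain ⟨h0, h1⟩ := hE p S r hr hW K U hK hU D F hF hstep
  refine ⟨h0, ?_⟩
  haveI : Finite ↥(eis p S r) :=
    Finite.of_injective (fun x : ↥(eis p S r) => (⟨x.1, x.2.1⟩ : ↥(tors p r)))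
      (fun a b hab => Subtype.ext (congrArg (fun z : ↥(tors p r) => (z : JZero p)) hab))
  have hw : 0 < Nat.card ↥(eis p S r) := Nat.card_pos
  have h2 : (rat p ⊔ eis p S r).relIndex (sel p r (eis p S r)) * Nat.card ↥(eis p S r)
      ≤ Nat.card ↥(eis p S r ⊓ rat p) * Nat.card ↥(eis p S r) :=
    le_trans h1 (Nat.mul_le_mul_left _ hKU)
  exact Nat.le_of_mul_le_mul_right h2 hw

/-- **Assembly of the skeleton, without T7.** -/
theorem descCoreTarget_of_nodes_alt (hA : Alg0Statement) (hE : EngineGenStatement)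
    (hDiv : DivStatement) (hFin : FinStatement) (hRtf : RtfStatement)
    (hFlag : FlagStatement) (hLoc : LocalGenStatement) (hLocP : LocP0Statement)
    (p : ℕ) [NeZero p] (hp : p.Prime) (S : Finset ℕ) (r : ℕ) (hr : r.Prime) (hrp : r ∣ p - 1) :
    DescCoreTarget p (S : Set ℕ) r := by
  have hW : Finite ↥(tors p r) := hFin p r hr.pos
  haveI : Finite ↥(eis p (S : Set ℕ) r) :=
    Finite.of_injective (fun x : ↥(eis p (S : Set ℕ) r) => (⟨x.1, x.2.1⟩ : ↥(tors p r)))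
      (fun a b hab => Subtype.ext (congrArg (fun z : ↥(tors p r) => (z : JZero p)) hab))
  obtain ⟨D, F, hF⟩ := hFlag p hp S r hr hrp
  obtain ⟨K, hK, hKcount, A, hA', τ₀, hτ₀, hstep⟩ := hLoc p hp S r hr hrp
  have hmono : ∀ j, j ≤ D → ∀ i, i ≤ j → F i ≤ F j := by
    intro j
    induction j with
    | zero =>
      intro _ i hi
      rw [Nat.le_zero.mp hi]
    | succ j ih =>
      intro hj i hi
      rcases Nat.lt_or_ge i (j + 1) with h | h
      · exact (ih (Nat.le_of_succ_le hj) i (Nat.lt_succ_iff.mp h)).trans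
          (hF.2.2 j (Nat.lt_of_succ_le hj)).1
      · rw [le_antisymm hi h]
  obtain ⟨h0, h1⟩ := hE p (S : Set ℕ) r hr hW K (U0 p (S : Set ℕ) r τ₀) hK
    (U0_le p (S : Set ℕ) r τ₀) D F hF fun i hi =>
      hstep (F i) (F (i + 1)) (by
        rw [← hF.2.1]
        exact hmono D le_rfl (i + 1) hi) (hF.2.2 i hi)
  have h2 := hLocP p hp S r hr hrp A hA' τ₀ hτ₀ h0
  have hsel : SelBound p (S : Set ℕ) r :=
    ⟨h0, selfImproving_gen _ _ _ _ _ (Nat.pos_of_ne_zero h0) Nat.card_pos h1 h2 hKcount⟩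
  exact hA p (S : Set ℕ) r hp hr (hDiv p hp r hr) (fun n hn => hFin p n hn) (hRtf p hp) hsel

end Fermat.Agent.S15.H208

end
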