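/-
S15 / DESC-CORE, LOC-p without T7 (helper208): the node `LocP0Statement` of `H208.TopAlt` from

* T6''  (`T6ppStatement p p (r^k)`, owner helper608),
* DIV, FIN, RTF (nodes of the frozen skeleton `H975.DescSpec`),
* Hecke facts on main (commutativity, Galois-equivariance) through `H302.goodEval`,
* the projector of `H2.exists_isSplit`.

`exists_proj` : for every `n` with `J[n]` finite there is a good Hecke operator `e`
(Galois-equivariant) which is the identity on the Eisenstein part of `J[n]` and maps `J[n]` into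
the Eisenstein part.
-/
import Fermat.Agent.S15.H208.TopAlt
import Fermat.Agent.S15.H208.LocPSpec
import Fermat.Agent.S15.H302.DescAlg
import Fermat.Agent.S15.H2.FiniteSplit

set_option autoImplicit false
set_option linter.style.haveILetI false

noncomputable section

namespace Fermat.Agent.S15.H208

open ModularCurve Fermat.Agent.S15.H975 Fermat.Agent.S15.H302

section Proj

variable (p : ℕ) [NeZero p] (S : Set ℕ)

/-- the generator `T_ℓ - (1 + ℓ)` of the Eisenstein ideal, in the good polynomial ring -/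
def genE (ℓ : GoodPrime p S) : GoodAlg p S :=
  MvPolynomial.X ℓ - MvPolynomial.C (((1 + (ℓ.1 : ℕ) : ℕ) : ℤ))

theorem goodEval_genE (ℓ : GoodPrime p S) : goodEval p S (genE p S ℓ) = eta p ℓ.1 := by
  unfold genE eta
  rw [map_sub, goodEval_X, goodEval_C]
  congr 1

theorem goodEval_genE_pow (ℓ : GoodPrime p S) (k : ℕ) (x : JZero p) :
    goodEval p S (genE p S ℓ ^ k) x = (eta p ℓ.1 ^ k) x := by
  rw [map_pow, goodEval_genE]

theorem goodEval_nsmul (t : GoodAlg p S) (n : ℕ) (x : JZero p) :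
    goodEval p S t (n • x) = n • goodEval p S t x :=
  map_nsmul _ _ _

/-- `IsEis` is Galois-stable. -/
theorem isEis_smul {w : JZero p} (hw : IsEis p S w) (σ : Gal) : IsEis p S (σ • w) := by
  intro ℓ h1 h2
  obtain ⟨k, hk⟩ := hw ℓ h1 h2
  refine ⟨k, ?_⟩
  have h3 : goodEval p S (genE p S ⟨ℓ, h1, h2⟩ ^ k) (σ • w)
      = σ • goodEval p S (genE p S ⟨ℓ, h1, h2⟩ ^ k) w := goodEval_galois p S _ σ w
  rw [goodEval_genE_pow, goodEval_genE_pow, hk] at h3
  rw [h3]
  exact smul_zero (A := JZero p) σ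

/-- **PROJ**: the projector onto the Eisenstein part of `J[n]`. -/
theorem exists_proj (n : ℕ) (hfin : Finite ↥(tors p n)) :
    ∃ e : JZero p →+ JZero p, (∀ (σ : Gal) (x : JZero p), e (σ • x) = σ • e x) ∧
      (∀ x : JZero p, n • x = 0 → IsEis p S x → e x = x) ∧
      (∀ x : JZero p, n • x = 0 → IsEis p S (e x)) := by
  classical
  letI modJ : Module (GoodAlg p S) (JZero p) := Module.compHom (JZero p) (goodEval p S)
  have hsmul : ∀ (t : GoodAlg p S) (x : JZero p), t • x = goodEval p S t x := fun _ _ => rfl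
  let Y : Submodule (GoodAlg p S) (JZero p) :=
    { carrier := {w | n • w = 0}
      zero_mem' := smul_zero n
      add_mem' := fun {a b} ha hb => by
        show n • (a + b) = 0
        rw [nsmul_add, show n • a = 0 from ha, show n • b = 0 from hb, add_zero]
      smul_mem' := fun t w hw => by
        show n • (t • w) = 0
        rw [hsmul, ← goodEval_nsmul, show n • w = 0 from hw, map_zero] }
  haveI : Finite Y :=
    Finite.of_injective (fun y : Y => (⟨y.1, y.2⟩ : ↥(tors p n)))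
      (fun a b hab => Subtype.ext (congrArg (fun z : ↥(tors p n) => (z : JZero p)) hab))
  let 𝔪 : Ideal (GoodAlg p S) := Ideal.span (Set.range (genE p S))
  obtain ⟨K, f, hsplit⟩ := Fermat.Agent.S15.H2.exists_isSplit 𝔪 Y
  have hY : ∀ (t : GoodAlg p S) (y : Y), ((t • y : Y) : JZero p) = goodEval p S t y.1 :=
    fun _ _ => rfl
  refine ⟨(goodEval p S (1 - f)).toAddMonoidHom, fun σ x => goodEval_galois p S _ σ x, ?_, ?_⟩
  · intro x hx hE
    show goodEval p S (1 - f) x = x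
    -- `f` is nilpotent on `x`
    have hrad : 𝔪 ≤ (Ideal.torsionOf (GoodAlg p S) (JZero p) x).radical := by
      refine Ideal.span_le.2 ?_
      rintro _ ⟨ℓ, rfl⟩
      obtain ⟨k, hk⟩ := hE ℓ.1 ℓ.2.1 ℓ.2.2
      refine ⟨k, ?_⟩
      rw [Ideal.mem_torsionOf_iff, hsmul, goodEval_genE_pow]
      exact hk
    have hf𝔪 : f ∈ 𝔪 := Ideal.pow_le_self (Nat.pos_iff_ne_zero.1 hsplit.pos) hsplit.mem
    obtain ⟨N, hN⟩ := hrad hf𝔪
    rw [Ideal.mem_torsionOf_iff, hsmul] at hN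
    have hfx : goodEval p S f x = 0 := by
      rcases Nat.eq_zero_or_pos N with rfl | hNpos
      · rw [pow_zero, map_one, Module.End.one_apply] at hN
        rw [hN, map_zero]
      · have h1 := hsplit.pow_smul ⟨x, hx⟩ N hNpos
        have h2 := congrArg (fun y : Y => (y : JZero p)) h1
        simp only [hY] at h2
        rw [← h2]
        exact hN
    rw [map_sub, map_one, LinearMap.sub_apply, Module.End.one_apply, hfx, sub_zero]
  · intro x hx ℓ h1 h2
    refine ⟨K, ?_⟩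
    have hmem : genE p S ⟨ℓ, h1, h2⟩ ^ K ∈ 𝔪 ^ K :=
      Ideal.pow_mem_pow (Ideal.subset_span (Set.mem_range_self _)) K
    have h3 := hsplit.kill _ hmem ⟨x, hx⟩
    have h4 := congrArg (fun y : Y => (y : JZero p)) h3
    have h5 : ((genE p S ⟨ℓ, h1, h2⟩ ^ K • ((⟨x, hx⟩ : Y) - f • (⟨x, hx⟩ : Y)) : Y) : JZero p)
        = goodEval p S (genE p S ⟨ℓ, h1, h2⟩ ^ K) (x - goodEval p S f x) := rfl
    have h6 : (goodEval p S (1 - f)).toAddMonoidHom x = x - goodEval p S f x := by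
      show goodEval p S (1 - f) x = _
      rw [map_sub, map_one, LinearMap.sub_apply, Module.End.one_apply]
    rw [h6, ← goodEval_genE_pow p S ⟨ℓ, h1, h2⟩ K, ← h5]
    exact h4

end Proj

section Main

variable (p : ℕ) [NeZero p] (S : Set ℕ) (r : ℕ)

/-- `M = J[r^∞]_E`: the Eisenstein part of the `r`-power torsion. -/
def eisInf : AddSubgroup (JZero p) where
  carrier := {x | (∃ k : ℕ, r ^ k • x = 0) ∧ IsEis p S x}
  zero_mem' := ⟨⟨0, smul_zero _⟩, isEis_zero p S⟩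
  add_mem' := by
    rintro a b ⟨⟨k, hk⟩, ha⟩ ⟨⟨l, hl⟩, hb⟩
    refine ⟨⟨k + l, ?_⟩, ha.add p hb⟩
    rw [nsmul_add, pow_add, mul_comm, mul_smul, hk, smul_zero, mul_comm, mul_smul, hl,
      smul_zero, add_zero]
  neg_mem' := by
    rintro a ⟨⟨k, hk⟩, ha⟩
    exact ⟨⟨k, by rw [neg_nsmul, hk, neg_zero]⟩, ha.neg p⟩

theorem YE_eisInf : YE Gal r (eisInf p S r) = sel p r (eis p S r) := by
  ext y
  constructor
  · rintro ⟨h1, h2⟩
    refine ⟨h1, fun σ => ⟨?_, (h2 σ).2⟩⟩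
    show r • (σ • y - y) = 0
    rw [nsmul_sub, ← h1 σ, smul_comm, h1 σ, sub_self]
  · rintro ⟨h1, h2⟩
    exact ⟨h1, fun σ => ⟨⟨1, by rw [pow_one]; exact (h2 σ).1⟩, (h2 σ).2⟩⟩

omit [NeZero p] in
theorem fixed_eq_rat : FixedPoints.addSubgroup Gal (JZero p) = rat p := by
  ext x
  exact Iff.rfl

end Main

/-- **T6'' at level `p`, all `r`-power exponents.** -/
def T6ppAllStatement : Prop :=
  ∀ (p : ℕ) [NeZero p], p.Prime → ∀ r : ℕ, r.Prime → r ≠ p → ∀ k : ℕ, T6ppStatement p p (r ^ k)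

/-- `W_E` is Galois-stable. -/
theorem eis_stable (p : ℕ) [NeZero p] (S : Set ℕ) (r : ℕ) : IsStable p (eis p S r) := by
  rintro σ w ⟨h1, h2⟩
  refine ⟨?_, isEis_smul p S h2 σ⟩
  rw [smul_comm, h1]
  exact smul_zero (A := JZero p) σ

theorem eis_le_sel (p : ℕ) [NeZero p] (S : Set ℕ) (r : ℕ) :
    eis p S r ≤ sel p r (eis p S r) := by
  intro w hw
  refine ⟨fun σ => ?_, fun σ => (eis p S r).sub_mem (eis_stable p S r σ w hw) hw⟩
  rw [hw.1]
  exact smul_zero (A := JZero p) σ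

theorem rat_le_sel (p : ℕ) [NeZero p] (r : ℕ) (F : AddSubgroup (JZero p)) :
    rat p ≤ sel p r F := by
  intro a ha
  have ha' : ∀ σ : Gal, σ • a = a := ha
  refine ⟨fun σ => by rw [← smul_comm r σ a, ha' σ], fun σ => ?_⟩
  rw [ha' σ, sub_self]
  exact F.zero_mem

/-- `[Y : A] · |W ∩ A| = [Y : A + W] · |W|` for a finite subgroup `W ≤ Y`. -/
theorem relIndex_mul_card_inf {J : Type*} [AddCommGroup J] (A W Y : AddSubgroup J) [Finite ↥W]
    (hA : A ≤ Y) (hW : W ≤ Y) :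
    A.relIndex Y * Nat.card ↥(W ⊓ A) = (A ⊔ W).relIndex Y * Nat.card ↥W := by
  have h1 : A.relIndex (A ⊔ W) * (A ⊔ W).relIndex Y = A.relIndex Y :=
    AddSubgroup.relIndex_mul_relIndex A (A ⊔ W) Y le_sup_left (sup_le hA hW)
  have h2 : A.relIndex (A ⊔ W) = A.relIndex W := AddSubgroup.relIndex_sup_left W A
  have h3 : Nat.card ↥(A.addSubgroupOf W) * (A.addSubgroupOf W).index = Nat.card ↥W :=
    AddSubgroup.card_mul_index _
  have h4 : Nat.card ↥(A.addSubgroupOf W) = Nat.card ↥(W ⊓ A) := by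
    rw [← AddSubgroup.inf_addSubgroupOf_left A W]
    exact Nat.card_congr (AddSubgroup.addSubgroupOfEquivOfLe inf_le_left).toEquiv
  have h5 : A.relIndex W = (A.addSubgroupOf W).index := rfl
  rw [← h1, h2, h5, ← h3, h4]
  ring

/-- **LOCP0 from T6''.** -/
theorem locP0_of_t6pp (hT6 : T6ppAllStatement) (hDiv : DivStatement) (hFin : FinStatement)
    (hRtf : RtfStatement) : LocP0Statement := by
  intro p _ hp S r hr hrp A hA τ₀ hτ₀ h0
  classical
  have hrp' : r ≠ p := by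
    intro h
    subst h
    have h1 : 0 < r - 1 := Nat.sub_pos_of_lt hr.one_lt
    have h2 := Nat.le_of_dvd h1 hrp
    omega
  haveI hTfin : Finite ↥(tors p r) := hFin p r hr.pos
  haveI hWfin : Finite ↥(eis p (S : Set ℕ) r) :=
    Finite.of_injective (fun x : ↥(eis p (S : Set ℕ) r) => (⟨x.1, x.2.1⟩ : ↥(tors p r)))
      (fun a b hab => Subtype.ext (congrArg (fun z : ↥(tors p r) => (z : JZero p)) hab))
  -- hypotheses of `card_tauSub_YE_sq_le`
  have hMtors : ∀ x ∈ eisInf p (S : Set ℕ) r, ∃ k : ℕ, r ^ k • x = 0 := fun x hx => hx.1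
  have hMG : ∀ σ : Gal, ∀ x ∈ eisInf p (S : Set ℕ) r, σ • x ∈ eisInf p (S : Set ℕ) r := by
    rintro σ x ⟨⟨k, hk⟩, hE⟩
    refine ⟨⟨k, ?_⟩, isEis_smul p (S : Set ℕ) hE σ⟩
    rw [smul_comm, hk]
    exact smul_zero (A := JZero p) σ
  have hPROJ : ∀ k : ℕ, ∃ e : JZero p →+ JZero p,
      (∀ (σ : Gal) (x : JZero p), e (σ • x) = σ • e x) ∧
      (∀ x ∈ eisInf p (S : Set ℕ) r, r ^ k • x = 0 → e x = x) ∧
      (∀ x : JZero p, r ^ k • x = 0 → e x ∈ eisInf p (S : Set ℕ) r) := by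
    intro k
    obtain ⟨e, he1, he2, he3⟩ :=
      exists_proj p (S : Set ℕ) (r ^ k) (hFin p (r ^ k) (pow_pos hr.pos k))
    refine ⟨e, he1, fun x hx hk => he2 x hk hx.2, fun x hk => ⟨⟨k, ?_⟩, he3 x hk⟩⟩
    rw [← map_nsmul, hk, map_zero]
  have hdiv : ∀ h ∈ hullE Gal r (eisInf p (S : Set ℕ) r),
      ∃ h' ∈ hullE Gal r (eisInf p (S : Set ℕ) r),
        r • h' - h ∈ FixedPoints.addSubgroup Gal (JZero p) :=
    fun h hh => hullE_divisible r (eisInf p (S : Set ℕ) r) (hDiv p hp r hr) hPROJ h hh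
  have hT6' : ∀ h ∈ hullE Gal r (eisInf p (S : Set ℕ) r),
      τ₀ • (τ₀ • h - h) - (τ₀ • h - h) = 0 := by
    rintro h ⟨⟨k, hk⟩, -⟩
    have h1 : τ₀ • (τ₀ • h) + h = 2 • (τ₀ • h) := hT6 p hp r hr hrp' k A hA τ₀ hτ₀ h hk
    have h2 : τ₀ • (τ₀ • h - h) = τ₀ • (τ₀ • h) - τ₀ • h := smul_sub τ₀ (τ₀ • h) h
    rw [h2]
    have h3 : τ₀ • (τ₀ • h) = 2 • (τ₀ • h) - h := eq_sub_of_add_eq h1
    rw [h3, two_nsmul]
    abel
  have hfinA : Finite ↥(FixedPoints.addSubgroup Gal (JZero p) ⊓ eisInf p (S : Set ℕ) r) := by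
    obtain ⟨e, he, hexp⟩ := hRtf p hp
    haveI := hFin p e he
    refine Finite.of_injective
      (fun x : ↥(FixedPoints.addSubgroup Gal (JZero p) ⊓ eisInf p (S : Set ℕ) r) =>
        (⟨x.1, ?_⟩ : ↥(tors p e))) ?_
    · obtain ⟨hx1, ⟨k, hk⟩, -⟩ := x.2
      exact hexp x.1 hx1 ⟨r ^ k, pow_pos hr.pos k, hk⟩
    · intro a b hab
      exact Subtype.ext (congrArg (fun z : ↥(tors p e) => (z : JZero p)) hab)
  have hfinY : (FixedPoints.addSubgroup Gal (JZero p)).relIndex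
      (YE Gal r (eisInf p (S : Set ℕ) r)) ≠ 0 := by
    rw [YE_eisInf, fixed_eq_rat]
    have h1 : (rat p).relIndex (rat p ⊔ eis p (S : Set ℕ) r) ≠ 0 := by
      rw [AddSubgroup.relIndex_sup_left (eis p (S : Set ℕ) r) (rat p)]
      exact AddSubgroup.index_ne_zero_of_finite
    exact AddSubgroup.relIndex_ne_zero_trans h1 h0
  have key := card_tauSub_YE_sq_le (G := Gal) r (eisInf p (S : Set ℕ) r) τ₀ hMtors hMG hdiv
    hT6' hfinA hfinY
  rw [YE_eisInf, fixed_eq_rat] at key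
  have hprod := relIndex_mul_card_inf (rat p) (eis p (S : Set ℕ) r)
    (sel p r (eis p (S : Set ℕ) r)) (rat_le_sel p r _) (eis_le_sel p (S : Set ℕ) r)
  calc Nat.card ↥(U0 p (S : Set ℕ) r τ₀) ^ 2 * Nat.card ↥(eis p (S : Set ℕ) r ⊓ rat p)
      ≤ (rat p).relIndex (sel p r (eis p (S : Set ℕ) r))
          * Nat.card ↥(eis p (S : Set ℕ) r ⊓ rat p) := Nat.mul_le_mul_right _ key
    _ = _ := hprod

end Fermat.Agent.S15.H208

end
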