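/-
S15 / DESC-CORE, official route (`H975.DescSpec2`): the node CNT (helper208).

* `cnt_at`     : CNT at ONE pair `(p, r)`, from T6'' at `(p, r)`, DIV at `(p, r)`, FIN and the
                 boundedness of the rational torsion of `J₀(p)` (RTF at `p`, e.g. `H975.rtf_of_fg`).
* `cnt_of_rtf` : `H975.CntStatement` from `T6ppAllStatement`, DIV, FIN, RTF.

Proof: `H208.card_tauSub_YE_sq_le` (CNT-inst) with `M = J[r^∞]_E` (`H208.eisInf`), the projector
`H208.exists_proj` and `H208.hullE_divisible`.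
-/
import Fermat.Agent.S15.H975.DescSpec2
import Fermat.Agent.S15.H208.LocP0

set_option autoImplicit false
set_option linter.style.haveILetI false

noncomputable section

namespace Fermat.Agent.S15.H208

open ModularCurve Fermat.Agent.S15.H975 Fermat.Agent.S15.H302

/-- **CNT at one pair `(p, r)`**: `|(τ₀ - 1) Y(W_E)|² ≤ [Y(W_E) : A]`. -/
theorem cnt_at (p : ℕ) [NeZero p] (S : Set ℕ) (r : ℕ) (hr : 0 < r)
    (hT6 : ∀ k : ℕ, T6ppStatement p p (r ^ k))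
    (hDiv : ∀ x : JZero p, ∃ y : JZero p, r • y = x)
    (hFin : ∀ n : ℕ, 0 < n → Finite ↥(tors p n))
    (hRtf : ∃ e : ℕ, 0 < e ∧
      ∀ t : JZero p, (∀ σ : Gal, σ • t = t) → (∃ m : ℕ, 0 < m ∧ m • t = 0) → e • t = 0)
    (A : ValuationSubring Qb) (hA : A.LiesOverPrime p) (τ₀ : Gal)
    (hτ₀ : τ₀ ∈ A.inertiaSubgroupIn ℚ)
    (h0 : (rat p).relIndex (sel p r (eis p S r)) ≠ 0) :
    Nat.card ↥(cocImage p S r τ₀) ^ 2 ≤ (rat p).relIndex (sel p r (eis p S r)) := by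
  classical
  have hMtors : ∀ x ∈ eisInf p S r, ∃ k : ℕ, r ^ k • x = 0 := fun x hx => hx.1
  have hMG : ∀ σ : Gal, ∀ x ∈ eisInf p S r, σ • x ∈ eisInf p S r := by
    rintro σ x ⟨⟨k, hk⟩, hE⟩
    refine ⟨⟨k, ?_⟩, isEis_smul p S hE σ⟩
    rw [smul_comm, hk]
    exact smul_zero (A := JZero p) σ
  have hPROJ : ∀ k : ℕ, ∃ e : JZero p →+ JZero p,
      (∀ (σ : Gal) (x : JZero p), e (σ • x) = σ • e x) ∧
      (∀ x ∈ eisInf p S r, r ^ k • x = 0 → e x = x) ∧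
      (∀ x : JZero p, r ^ k • x = 0 → e x ∈ eisInf p S r) := by
    intro k
    obtain ⟨e, he1, he2, he3⟩ := exists_proj p S (r ^ k) (hFin (r ^ k) (pow_pos hr k))
    refine ⟨e, he1, fun x hx hk => he2 x hk hx.2, fun x hk => ⟨⟨k, ?_⟩, he3 x hk⟩⟩
    rw [← map_nsmul, hk, map_zero]
  have hdiv : ∀ h ∈ hullE Gal r (eisInf p S r),
      ∃ h' ∈ hullE Gal r (eisInf p S r), r • h' - h ∈ FixedPoints.addSubgroup Gal (JZero p) :=
    fun h hh => hullE_divisible r (eisInf p S r) hDiv hPROJ h hh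
  have hT6' : ∀ h ∈ hullE Gal r (eisInf p S r), τ₀ • (τ₀ • h - h) - (τ₀ • h - h) = 0 := by
    rintro h ⟨⟨k, hk⟩, -⟩
    have h1 : τ₀ • (τ₀ • h) + h = 2 • (τ₀ • h) := hT6 k A hA τ₀ hτ₀ h hk
    have h2 : τ₀ • (τ₀ • h - h) = τ₀ • (τ₀ • h) - τ₀ • h := smul_sub τ₀ (τ₀ • h) h
    rw [h2]
    have h3 : τ₀ • (τ₀ • h) = 2 • (τ₀ • h) - h := eq_sub_of_add_eq h1
    rw [h3, two_nsmul]
    abel
  have hfinA : Finite ↥(FixedPoints.addSubgroup Gal (JZero p) ⊓ eisInf p S r) := by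
    obtain ⟨e, he, hexp⟩ := hRtf
    haveI := hFin e he
    refine Finite.of_injective
      (fun x : ↥(FixedPoints.addSubgroup Gal (JZero p) ⊓ eisInf p S r) =>
        (⟨x.1, ?_⟩ : ↥(tors p e))) ?_
    · obtain ⟨hx1, ⟨k, hk⟩, -⟩ := x.2
      exact hexp x.1 hx1 ⟨r ^ k, pow_pos hr k, hk⟩
    · intro a b hab
      exact Subtype.ext (congrArg (fun z : ↥(tors p e) => (z : JZero p)) hab)
  have hfinY : (FixedPoints.addSubgroup Gal (JZero p)).relIndex
      (YE Gal r (eisInf p S r)) ≠ 0 := by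
    rw [YE_eisInf, fixed_eq_rat]
    exact h0
  have key := card_tauSub_YE_sq_le (G := Gal) r (eisInf p S r) τ₀ hMtors hMG hdiv
    hT6' hfinA hfinY
  rw [YE_eisInf, fixed_eq_rat] at key
  exact key

/-- **CNT** (`H975.CntStatement`) from T6'', DIV, FIN, RTF. -/
theorem cnt_of_rtf (hT6 : T6ppAllStatement) (hDiv : DivStatement) (hFin : FinStatement)
    (hRtf : RtfStatement) : CntStatement := by
  intro p _ hp S r hr hrp A hA τ₀ hτ₀ h0
  have hrp' : r ≠ p := by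
    intro h
    subst h
    have h1 : 0 < r - 1 := Nat.sub_pos_of_lt hr.one_lt
    have h2 := Nat.le_of_dvd h1 hrp
    omega
  exact cnt_at p (S : Set ℕ) r hr.pos (fun k => hT6 p hp r hr hrp' k) (hDiv p hp r hr)
    (fun n hn => hFin p n hn) (hRtf p hp) A hA τ₀ hτ₀ h0

end Fermat.Agent.S15.H208

end
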